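import Fermat.Agent.S16.H131.U4
import Fermat.Agent.S16.H377.SkelFR
import Fermat.Agent.S16.H260.QCalc
import Fermat.Agent.S20.C0_helper516

/-!
# S16, WP U4 (helper16): instantiation of the abstract Fricke system

`frickeSys p : H131.FrickeSys p _` built from the landed FR package (`H377.SkelFR`) and the
function-level `q`-calculus (`H260.QCalc`); consequence: the EXACT skeleton statement `U4`.
-/

set_option autoImplicit false
set_option linter.unusedSectionVars false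

noncomputable section

namespace Fermat.Agent.S16.H16

open UpperHalfPlane ModularForm CongruenceSubgroup MatrixGroups ModularFormClass
open Fermat.Agent.S20 (MF SF)
open Fermat.Agent.S16
open Fermat.Agent.S16.H260 (Nice nice_of_mem_MF_Gamma0 nice_of_mem_MF_top)
open Fermat.Agent.S16.H131 (FrickeSys IsL1 Uop PP)
open scoped Manifold

variable (p : ℕ) [hpp : Fact p.Prime]

theorem u4_p_ne_zero : p ≠ 0 := hpp.out.ne_zero

theorem u4_MF_top_le (k : ℤ) : MF ⊤ k ≤ MF (Gamma0 p) k := by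
  rintro f ⟨h1, h2, h3⟩
  exact ⟨h1, fun γ _ => h2 γ (Subgroup.mem_top _), h3⟩

/-- `q`-expansion of `U_p` as a power series. -/
theorem u4_qExpansion_heckeU {f : ℍ → ℂ} (hf : Nice f) (k : ℤ) :
    qExpansion 1 (heckeU k p f) = Uop p (qExpansion 1 f) := by
  ext n
  have h := H260.qCoeff_heckeU hf k (u4_p_ne_zero p) n
  unfold qCoeff at h
  rw [h, H131.coeff_Uop, mul_comm]

/-- `q`-expansion of `V_p` as a power series. -/
theorem u4_qExpansion_Vp {f : ℍ → ℂ} (hf : Nice f) :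
    qExpansion 1 (Vp p f) = PowerSeries.expand p (u4_p_ne_zero p) (qExpansion 1 f) := by
  ext n
  have h := (H260.qCoeff_Vp hf (Nat.pos_of_ne_zero (u4_p_ne_zero p))).2 n
  unfold qCoeff at h
  rw [h, PowerSeries.coeff_expand]


theorem u4_mul_mem_MF {Γ : Subgroup SL(2, ℤ)} {a k : ℤ} {f g : ℍ → ℂ} (hf : f ∈ MF Γ a)
    (hg : g ∈ MF Γ k) : f * g ∈ MF Γ (a + k) := by
  obtain ⟨h1, h2, h3⟩ := hf
  obtain ⟨g1, g2, g3⟩ := hg
  refine ⟨h1.mul g1, fun γ hγ => ?_, fun γ => ?_⟩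
  · rw [ModularForm.mul_slash_SL2, h2 γ hγ, g2 γ hγ]
  · rw [ModularForm.mul_slash_SL2]
    exact (h3 γ).mul (g3 γ)

/-- The predicate of the concrete Fricke system: pairs `(q(F), q(F^))`. -/
def u4Form (w : ℤ) (x : PP) : Prop :=
  ∃ F ∈ MF (Gamma0 p) w, qExpansion 1 F = x.1 ∧ qExpansion 1 (hat p w F) = x.2

theorem u4_nice {w : ℤ} {F : ℍ → ℂ} (hF : F ∈ MF (Gamma0 p) w) : Nice F :=
  nice_of_mem_MF_Gamma0 hF

theorem u4_nice_hat {w : ℤ} {F : ℍ → ℂ} (hF : F ∈ MF (Gamma0 p) w) : Nice (hat p w F) :=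
  nice_of_mem_MF_Gamma0 (H377.FR.hat_mem_MF p hF)

/-- The concrete Fricke system of level `p`. -/
def frickeSys : FrickeSys p (u4_p_ne_zero p) where
  Form := u4Form p
  add := by
    rintro w x y ⟨F, hF, h1, h2⟩ ⟨G, hG, g1, g2⟩
    refine ⟨F + G, Submodule.add_mem _ hF hG, ?_, ?_⟩
    · rw [qExpansion_add (u4_nice p hF).analyticAt (u4_nice p hG).analyticAt, h1, g1]
      rfl
    · rw [H377.FR.hat_add, qExpansion_add (u4_nice_hat p hF).analyticAt
        (u4_nice_hat p hG).analyticAt, h2, g2]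
      rfl
  smul := by
    rintro w x c ⟨F, hF, h1, h2⟩
    refine ⟨c • F, Submodule.smul_mem _ c hF, ?_, ?_⟩
    · rw [qExpansion_smul (u4_nice p hF).analyticAt, h1]
      rfl
    · rw [H377.FR.hat_smul, qExpansion_smul (u4_nice_hat p hF).analyticAt, h2]
      rfl
  mul := by
    rintro w w' x y ⟨F, hF, h1, h2⟩ ⟨G, hG, g1, g2⟩
    refine ⟨F * G, u4_mul_mem_MF hF hG, ?_, ?_⟩
    · rw [qExpansion_mul (u4_nice p hF).analyticAt (u4_nice p hG).analyticAt, h1, g1]
      rfl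
    · rw [H377.FR.hat_mul, qExpansion_mul (u4_nice_hat p hF).analyticAt
        (u4_nice_hat p hG).analyticAt, h2, g2]
      rfl
  ofL1 := by
    rintro w a ⟨f, rfl⟩
    have hf : (⇑f : ℍ → ℂ) ∈ MF ⊤ w := Fermat.Agent.S20.C0h516.mem_MF_top_iff_exists.2 ⟨f, rfl⟩
    refine ⟨⇑f, u4_MF_top_le p w hf, rfl, ?_⟩
    rw [H377.FR.hat_levelOne p hf]
    have hV := (H260.qCoeff_Vp (nice_of_mem_MF_top hf) (Nat.pos_of_ne_zero (u4_p_ne_zero p))).1
    rw [qExpansion_smul hV, u4_qExpansion_Vp p (nice_of_mem_MF_top hf)]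
  symm := by
    rintro w x hw ⟨F, hF, h1, h2⟩
    refine ⟨hat p w F, H377.FR.hat_mem_MF p hF, h2, ?_⟩
    rw [H377.FR.hat_hat p hw, qExpansion_smul (u4_nice p hF).analyticAt, h1]
  trace := by
    rintro w x ⟨F, hF, h1, h2⟩
    obtain ⟨g, hg⟩ := Fermat.Agent.S20.C0h516.mem_MF_top_iff_exists.1 (H377.FR.tr_mem_MF p hF)
    refine ⟨g, ?_⟩
    rw [hg]
    have hU : Nice (heckeU w p (hat p w F)) := (u4_nice_hat p hF).heckeU w p
    unfold tr
    rw [qExpansion_add (u4_nice p hF).analyticAt (hU.smul _).analyticAt,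
      qExpansion_smul hU.analyticAt, u4_qExpansion_heckeU p (u4_nice_hat p hF), h1, h2]


/-- **WP U4**, exact skeleton statement: no `G ∈ M₂(Γ₀(p))`, `p ≡ 7 mod 8`, has integral
`q`-expansion congruent to an odd constant mod `8`. -/
theorem U4 (p : ℕ) [Fact p.Prime] (hp8 : p % 8 = 7) {G : ℍ → ℂ} (hG : G ∈ MF (Gamma0 p) 2)
    (s : ℤ) (hs : Odd s) (h0 : qCoeff G 0 = (s : ℂ))
    (hcong : ∀ k : ℕ, 1 ≤ k → ∃ m : ℤ, qCoeff G k = 8 * (m : ℂ)) : False := by
  classical
  choose m hm using hcong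
  set x : PowerSeries ℤ := PowerSeries.mk fun k => if h : 1 ≤ k then m k h else 0 with hx
  have h8 : 8 ∣ p + 1 := by omega
  have hq : qExpansion 1 G = H131.ι (PowerSeries.C s + 8 * x) := by
    ext n
    have h8' : (8 : PowerSeries ℤ) = PowerSeries.C (8 : ℤ) := by rw [map_ofNat]
    rw [H131.ι, PowerSeries.coeff_map, map_add, h8', PowerSeries.coeff_C_mul, hx,
      PowerSeries.coeff_mk, PowerSeries.coeff_C]
    by_cases hn : n = 0
    · subst hn
      have := h0
      unfold qCoeff at this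
      rw [this]
      simp
    · have h1 : 1 ≤ n := Nat.one_le_iff_ne_zero.2 hn
      have := hm n h1
      unfold qCoeff at this
      rw [this, if_neg hn, dif_pos h1]
      simp
  exact (frickeSys p).U4 h8 s hs x (qExpansion 1 (hat p 2 G)) ⟨G, hG, hq, rfl⟩

end Fermat.Agent.S16.H16
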